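import Mathlib

/-!
# PROGRAMME I, block A1 (helper21): equality of two real absolute values with the same unit ball

Two real absolute values on a field with the same unit ball are equivalent; if they moreover agree
at one element of value in `(0, 1)` they are equal (`absoluteValue_eq_of_le_one_iff`).  Norm form
for two ring homomorphisms into normed fields: `norm_map_eq_of_le_one_iff`.
-/

set_option autoImplicit false

noncomputable section

namespace Fermat.Agent.FF3.FrameL

open AbsoluteValue

variable {F : Type*} [Field F]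

/-- same unit ball implies same open unit ball -/
theorem lt_one_iff_of_le_one_iff (v w : AbsoluteValue F ℝ) (h : ∀ x, v x ≤ 1 ↔ w x ≤ 1) (x : F) :
    v x < 1 ↔ w x < 1 := by
  rcases eq_or_ne x 0 with rfl | hx
  · simp
  · have hv : v x < 1 ↔ ¬ v x⁻¹ ≤ 1 := by
      rw [map_inv₀, not_le, one_lt_inv₀ (v.pos hx)]
    have hw : w x < 1 ↔ ¬ w x⁻¹ ≤ 1 := by
      rw [map_inv₀, not_le, one_lt_inv₀ (w.pos hx)]
    rw [hv, hw, h]

/-- **Two real absolute values with the same unit ball which agree at one element of value in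
`(0, 1)` are equal.** -/
theorem absoluteValue_eq_of_le_one_iff (v w : AbsoluteValue F ℝ) (h : ∀ x, v x ≤ 1 ↔ w x ≤ 1)
    {π : F} (hπ0 : π ≠ 0) (hπ1 : v π < 1) (hπ : v π = w π) : v = w := by
  have heq : v.IsEquiv w := isEquiv_iff_lt_one_iff.2 (lt_one_iff_of_le_one_iff v w h)
  obtain ⟨c, hc, hvw⟩ := isEquiv_iff_exists_rpow_eq.1 heq
  have hpos : 0 < v π := v.pos hπ0
  have h1 : v π ^ c = v π := by
    have h0 : v π ^ c = w π := congrFun hvw π
    rw [h0, hπ]
  have hlog : Real.log (v π) ≠ 0 := (Real.log_neg hpos hπ1).ne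
  have h2 : c * Real.log (v π) = Real.log (v π) := by
    rw [← Real.log_rpow hpos, h1]
  have hc1 : c = 1 := by
    have h3 : (c - 1) * Real.log (v π) = 0 := by linear_combination h2
    rcases mul_eq_zero.1 h3 with h4 | h4
    · linarith
    · exact absurd h4 hlog
  ext x
  have h0 : v x ^ c = w x := congrFun hvw x
  rw [← h0, hc1, Real.rpow_one]

/-- the absolute value `x ↦ ‖f x‖` attached to a ring homomorphism into a normed field -/
def absOfHom {L : Type*} [NormedField L] (f : F →+* L) : AbsoluteValue F ℝ where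
  toFun x := ‖f x‖
  map_mul' x y := by rw [map_mul, norm_mul]
  nonneg' x := norm_nonneg _
  eq_zero' x := by rw [norm_eq_zero, map_eq_zero]
  add_le' x y := by rw [map_add]; exact norm_add_le _ _

@[simp]
theorem absOfHom_apply {L : Type*} [NormedField L] (f : F →+* L) (x : F) :
    absOfHom f x = ‖f x‖ := rfl

/-- **Norm form.**  Two ring homomorphisms `f, g` of a field into normed fields with the same unit
ball, and a natural number `p` with `0 < ‖f p‖ < 1` and `‖g p‖ = ‖f p‖` (automatic if the target
is the same normed field), have the same norm. -/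
theorem norm_map_eq_of_le_one_iff {L L' : Type*} [NormedField L] [NormedField L']
    (f : F →+* L) (g : F →+* L') (h : ∀ x, ‖f x‖ ≤ 1 ↔ ‖g x‖ ≤ 1) {π : F} (hπ0 : π ≠ 0)
    (hπ1 : ‖f π‖ < 1) (hπ : ‖f π‖ = ‖g π‖) (x : F) : ‖f x‖ = ‖g x‖ := by
  have := absoluteValue_eq_of_le_one_iff (absOfHom f) (absOfHom g) h hπ0 hπ1 hπ
  exact congrArg (fun v : AbsoluteValue F ℝ => v x) this

end Fermat.Agent.FF3.FrameL
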