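import Mathlib
import Fermat.Agent.FF3.Compl.Completion
import Fermat.Agent.FF3.Compl.Extend
import Fermat.Agent.FF3.FrameL.AbsEq

/-!
# PROGRAMME I, block A1 (helper21): the abstract frame

`E` a field with a rank one valuation subring `O₁` (element form `Compl.ArchE`), `p` a natural
number which is a nonzero nonunit of `O₁`, `α β : F →+* E` two embeddings of a field `F` such that

* `α F` is `p`-adically dense in `O₁` (`hdense`), and
* `β x ∈ O₁ ↔ α x ∈ O₁` (`hβ`).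

Then the completion `L` of `E` at `O₁` carries the Frobenius lift `φ : L →+* L`, the isometric
extension by continuity of `e1 (α x) ↦ e1 (β x)` (`exists_frame_abstract`).  Mathlib + helper27's
shared leaf `FF3/Compl` (completion, extension of isometries) only.
-/

set_option autoImplicit false

noncomputable section

namespace Fermat.Agent.FF3.FrameL

universe u

variable {F : Type*} {E : Type u} [Field F] [Field E]

/-- a ring homomorphism to a normed field whose unit ball is `O₁` has norm `< 1` on the nonunits -/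
theorem norm_lt_one_of_mem_nonunits {L : Type*} [NormedField L] (e1 : E →+* L)
    (O₁ : ValuationSubring E) (hO : ∀ x : E, ‖e1 x‖ ≤ 1 ↔ x ∈ O₁) {u : E}
    (hu : u ∈ O₁.nonunits) : ‖e1 u‖ < 1 := by
  by_contra h
  rw [not_lt] at h
  have hu0 : u ≠ 0 := by
    rintro rfl
    rw [map_zero, norm_zero] at h
    exact absurd h (by norm_num)
  have hpos : 0 < ‖e1 u‖ := norm_pos_iff.2 ((map_ne_zero e1).2 hu0)
  have h1 : ‖e1 u⁻¹‖ ≤ 1 := by
    rw [map_inv₀, norm_inv]
    exact inv_le_one_of_one_le₀ h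
  have h2 : u⁻¹ ∈ O₁ := (hO _).1 h1
  have h3 : O₁.valuation u⁻¹ ≤ 1 := (O₁.valuation_le_one_iff _).2 h2
  have h4 : O₁.valuation u < 1 := (O₁.mem_nonunits_iff).1 hu
  have h5 : O₁.valuation u ≠ 0 := (Valuation.ne_zero_iff _).2 hu0
  rw [map_inv₀] at h3
  have h6 : 1 ≤ O₁.valuation u := (inv_le_one₀ (zero_lt_iff.2 h5)).1 h3
  exact absurd h4 (not_lt.2 h6)

/-- **THE ABSTRACT FRAME.** -/
theorem exists_frame_abstract (α β : F →+* E) (O₁ : ValuationSubring E)
    (harch : Compl.ArchE O₁) (p : ℕ) (hp : (p : E) ∈ O₁.nonunits) (hp0 : (p : E) ≠ 0)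
    (hdense : ∀ z ∈ O₁, ∀ n : ℕ, ∃ g : F, ∃ w ∈ O₁, z - α g = (p : E) ^ n * w)
    (hβ : ∀ x : F, β x ∈ O₁ ↔ α x ∈ O₁) :
    ∃ (L : Type u) (_ : NormedField L) (_ : CompleteSpace L) (_ : IsUltrametricDist L)
      (e1 : E →+* L) (φ : L →+* L),
      (∀ x : E, ‖e1 x‖ ≤ 1 ↔ x ∈ O₁) ∧ (∀ x : F, e1 (β x) = φ (e1 (α x))) ∧
      DenseRange (fun x : F => e1 (α x)) ∧ (∀ y : L, ‖φ y‖ = ‖y‖) ∧ Continuous φ ∧
      DenseRange e1 := by
  obtain ⟨L, i1, i2, i3, e1, hO, hd⟩ :=
    Compl.exists_completion_of_valuationSubring O₁ harch ⟨p, hp, hp0⟩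
  have hpn : ‖e1 (p : E)‖ < 1 := norm_lt_one_of_mem_nonunits e1 O₁ hO hp
  have he1p : e1 (p : E) ≠ 0 := (map_ne_zero e1).2 hp0
  have hpn0 : 0 < ‖e1 (p : E)‖ := norm_pos_iff.2 he1p
  have hpF : (p : F) ≠ 0 := by
    intro h
    apply hp0
    rw [← map_natCast α, h, map_zero]
  -- density of `α F`
  have hdense' : DenseRange (fun x : F => e1 (α x)) := by
    rw [Metric.denseRange_iff]
    intro y r hr
    obtain ⟨z, hz⟩ := Metric.denseRange_iff.1 hd y r hr
    obtain ⟨m, hm⟩ := harch z p hp hp0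
    obtain ⟨n, hn⟩ := exists_pow_lt_of_lt_one (mul_pos hr (pow_pos hpn0 m)) hpn
    obtain ⟨g, w, hw, hgw⟩ := hdense _ hm n
    refine ⟨g / (p : F) ^ m, ?_⟩
    have hpm : e1 (p : E) ^ m ≠ 0 := pow_ne_zero _ he1p
    have h1 : e1 z - e1 (α (g / (p : F) ^ m)) = e1 (p : E) ^ n * e1 w / e1 (p : E) ^ m := by
      rw [map_div₀, map_pow, map_natCast, map_div₀, map_pow, eq_div_iff hpm, sub_mul,
        div_mul_cancel₀ _ hpm, ← map_pow, ← map_mul, ← map_sub, hgw, map_mul, map_pow]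
    have h2 : ‖e1 z - e1 (α (g / (p : F) ^ m))‖ < r := by
      rw [h1, norm_div, norm_mul, norm_pow, norm_pow, div_lt_iff₀ (pow_pos hpn0 m)]
      calc ‖e1 (p : E)‖ ^ n * ‖e1 w‖ ≤ ‖e1 (p : E)‖ ^ n * 1 := by
            gcongr
            exact (hO w).2 hw
        _ = ‖e1 (p : E)‖ ^ n := mul_one _
        _ < r * ‖e1 (p : E)‖ ^ m := hn
    calc dist y (e1 (α (g / (p : F) ^ m)))
        ≤ max (dist y (e1 z)) (dist (e1 z) (e1 (α (g / (p : F) ^ m)))) :=
          dist_triangle_max _ _ _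
      _ < r := max_lt hz (by rw [dist_eq_norm]; exact h2)
  -- `β` is isometric for the norm induced by `α`
  have hiso : ∀ x : F, ‖(e1.comp β) x‖ = ‖(e1.comp α) x‖ := by
    intro x
    refine norm_map_eq_of_le_one_iff (e1.comp β) (e1.comp α) (fun x => ?_) hpF ?_ ?_ x
    · rw [RingHom.comp_apply, RingHom.comp_apply, hO, hO, hβ]
    · rw [RingHom.comp_apply, map_natCast]
      exact hpn
    · simp only [map_natCast]
  have hdense'' : DenseRange (e1.comp α) := hdense'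
  obtain ⟨φ, hφ1, hφ2, hφ3⟩ :=
    Compl.exists_extend_isometry (e1.comp α) hdense'' (e1.comp β) hiso
  exact ⟨L, i1, i2, i3, e1, φ, hO, fun x => (hφ1 x).symm, hdense', hφ2, hφ3, hd⟩

end Fermat.Agent.FF3.FrameL
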