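import Mathlib
import Fermat.Agent.BR2.NormResidueGen

/-!
# PROGRAMME I, block A1c (helper21): density of the base field at a valuation of residue degree one

Generic, over main's two-valuation package `BR/TwoVal.lean`: in the full situation
`D : Full O₀ O₁ O₂ Unit κ` (residue degree `f₁ = 1` at `O₁`) the base field `F` is dense in
`(E, O₁)` to ARBITRARY precision: for `z ∈ O₁` and `a ∈ F`, `a ≠ 0`, there is `g ∈ O₀` with
`a • (z - g) ∈ O₁` (`exists_algebraMap_sub_small`).  No discreteness: the adapted basis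
(`NormResidue.basis_of_adapted`) is chosen `a`-small at the other valuation
(`NormResidue.exists_adapted_small`) and `z` is moved into `O₁ ∩ O₂` by strong approximation
(`TwoVal.Setup.exists_approx`).
-/

set_option autoImplicit false

namespace Fermat.Agent.FF3.FrameL

open Fermat.Agent.Val Fermat.Agent.BR.TwoVal Fermat.Agent.BR2.NormResidue

variable {F E : Type*} [Field F] [Field E] [Algebra F E] [FiniteDimensional F E]
variable {O₀ : ValuationSubring F} {O₁ O₂ : ValuationSubring E} {κ : Type*} [Fintype κ]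

/-- **Density at arbitrary precision** for a valuation of residue degree one. -/
theorem exists_algebraMap_sub_small (D : Full O₀ O₁ O₂ Unit κ) {z : E} (hz : z ∈ O₁) (a : F)
    (ha : a ≠ 0) : ∃ g ∈ O₀, a • (z - algebraMap F E g) ∈ O₁ := by
  classical
  have S := D.setup
  by_cases haO : a ∈ O₀
  · exact ⟨0, O₀.zero_mem, by rw [map_zero, sub_zero]; exact S.smul_mem₁ haO hz⟩
  have hainv : a⁻¹ ∈ O₀ := (O₀.mem_or_inv_mem a).resolve_left haO
  -- adapted families, small at the other valuation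
  obtain ⟨x', hx'⟩ := exists_adapted_small S D.hx.1 a
  obtain ⟨y', hy'⟩ := exists_adapted_small S.symm D.hy.1 a
  obtain ⟨b, hbz, hchar, -⟩ := basis_of_adapted D
    (fun i => ⟨(hx' i).1, (hx' i).2.1, (hx' i).2.2.1⟩)
    (fun j => ⟨(hy' j).1, (hy' j).2.1, (hy' j).2.2.1⟩)
  -- `x' ()` is a unit of `O₁`
  have hxu : D.x () ∉ O₁.nonunits := by
    intro h
    have h1 := D.hx.2 (fun _ => (1 : F)) (fun _ => O₀.one_mem)
      (by rw [Fintype.sum_unique, one_smul]; exact h) ()
    exact one_notMem_nonunits O₀ h1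
  have hx'u : x' () ∉ O₁.nonunits := by
    intro h
    apply hxu
    have h1 : D.x () = x' () - (x' () - D.x ()) := by ring
    rw [h1]
    exact sub_mem_nonunits O₁ h (hx' ()).2.1
  have hx'inv : (x' ())⁻¹ ∈ O₁ := inv_mem_of_notMem_nonunits O₁ hx'u
  have hx'0 : x' () ≠ 0 := fun h => hx'u (h ▸ zero_mem_nonunits O₁)
  -- strong approximation
  have haE : algebraMap F E a ≠ 0 := (map_ne_zero _).2 ha
  obtain ⟨w, hw₁, hw₂⟩ := S.exists_approx (algebraMap F E a)⁻¹ (z * x' ()) 0
  rw [inv_inv] at hw₁ hw₂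
  rw [sub_zero] at hw₂
  have hw₁' : a • (w - z * x' ()) ∈ O₁ := by
    rw [Algebra.smul_def, mul_comm]
    exact hw₁
  have hw₂' : a • w ∈ O₂ := by
    rw [Algebra.smul_def, mul_comm]
    exact hw₂
  have hwO₂ : w ∈ O₂ := by
    have h1 : w = a⁻¹ • (a • w) := by rw [smul_smul, inv_mul_cancel₀ ha, one_smul]
    rw [h1]
    exact S.smul_mem₂ hainv hw₂'
  have hwO₁ : w ∈ O₁ := by
    have h1 : w = a⁻¹ • (a • (w - z * x' ())) + z * x' () := by
      rw [smul_smul, inv_mul_cancel₀ ha, one_smul]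
      ring
    rw [h1]
    exact O₁.add_mem _ _ (S.smul_mem₁ hainv hw₁') (O₁.mul_mem _ _ hz (hx' ()).1)
  have hcoord := (hchar w).1 ⟨hwO₁, hwO₂⟩
  refine ⟨b.repr w (Sum.inl ()), hcoord _, ?_⟩
  -- the expansion of `w`
  have hexp : w = b.repr w (Sum.inl ()) • x' () + ∑ j, b.repr w (Sum.inr j) • y' j := by
    conv_lhs => rw [← b.sum_repr w]
    rw [Fintype.sum_sum_type, Fintype.sum_unique]
    congr 1
    · rw [hbz]
      rfl
    · refine Finset.sum_congr rfl fun j _ => ?_
      rw [hbz]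
      rfl
  have hsum : ∑ j, b.repr w (Sum.inr j) • (a • y' j) ∈ O₁ :=
    sum_mem fun j _ => S.smul_mem₁ (hcoord _) (mem_of_mem_nonunits O₁ (hy' j).2.2.2)
  have hkey : a • (z - algebraMap F E (b.repr w (Sum.inl ()))) * x' () ∈ O₁ := by
    have h1 : a • (z - algebraMap F E (b.repr w (Sum.inl ()))) * x' () =
        -(a • (w - z * x' ())) + ∑ j, b.repr w (Sum.inr j) • (a • y' j) := by
      have h2 : ∑ j, b.repr w (Sum.inr j) • (a • y' j) =
          a • ∑ j, b.repr w (Sum.inr j) • y' j := by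
        rw [Finset.smul_sum]
        exact Finset.sum_congr rfl fun j _ => smul_comm _ _ _
      rw [h2]
      have h3 : ∑ j, b.repr w (Sum.inr j) • y' j = w - b.repr w (Sum.inl ()) • x' () := by
        rw [eq_sub_iff_add_eq, add_comm]
        exact hexp.symm
      rw [h3]
      simp only [Algebra.smul_def]
      ring
    rw [h1]
    exact O₁.add_mem _ _ (O₁.neg_mem _ hw₁') hsum
  have h4 : a • (z - algebraMap F E (b.repr w (Sum.inl ()))) =
      a • (z - algebraMap F E (b.repr w (Sum.inl ()))) * x' () * (x' ())⁻¹ := by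
    rw [mul_assoc, mul_inv_cancel₀ hx'0, mul_one]
  rw [h4]
  exact O₁.mul_mem _ _ hkey hx'inv

end Fermat.Agent.FF3.FrameL
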