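import Mathlib
import Fermat.Agent.BR.TwoValInst
import Fermat.Agent.BR.Separate
import Fermat.Agent.FF3.FrameL.Abstract
import Fermat.Agent.FF3.FrameL.Dense

/-!
# PROGRAMME I, block A1 (helper21): existence of the frame for `F̄_{Mq}` at the component `∞`

`exists_frame_data` : the completion `L` of `(F̄_{Mq}, O1)` with `e1 : F̄_{Mq} →+* L` of unit ball
`O1`, the level-`M` functions (along `α`) dense, and the isometric Frobenius lift `φ : L →+* L`
with `e1 ∘ β = φ ∘ e1 ∘ α`.  These are literally the six fields of helper27's `StepA.Frame`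
(contract D-A, finding #1734), plus continuity of `φ` and density of `e1`.

Inputs from main: `TwoValInst.arch_O1` (rank one), `Separate.algebraMap_mem_nonunits_O1_iff`
(`q` is a nonunit), `TwoValInst.twoValFull` (`f₁ = 1`: density, via `FrameL/Dense.lean`),
`ResGen.alpha_mem_O1_iff`, `ResGen.beta_mem_O1_iff` (`β` is isometric).
-/

set_option autoImplicit false
set_option linter.style.haveILetI false

noncomputable section

namespace Fermat.Agent.FF3.FrameL

open ModularCurve AlgebraicCurve Fermat.Agent.X0 Fermat.Agent.Val Fermat.Agent.BR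
  Fermat.Agent.BR.TwoVal Fermat.Agent.BR.TwoValInst Fermat.Agent.BR.ResGen

variable (M q : ℕ) [NeZero M] [hq : Fact q.Prime]
  (B : ValuationSubring (AlgebraicClosure ℚ)) (hB : B.LiesOverPrime q) (hqM : ¬ q ∣ M)

theorem natCast_mem_nonunits_O1 : ((q : ℕ) : Fb (M * q)) ∈ (O1 M B hB).nonunits := by
  rw [← map_natCast (algebraMap Kb (Fb (M * q))) q]
  exact (Separate.algebraMap_mem_nonunits_O1_iff B hB _).mpr hB

omit [NeZero M] in
theorem natCast_ne_zero_Fb : ((q : ℕ) : Fb (M * q)) ≠ 0 := by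
  rw [← map_natCast (algebraMap Kb (Fb (M * q))) q]
  exact (map_ne_zero _).2 (Nat.cast_ne_zero.2 hq.out.ne_zero)

include hqM in
/-- `q`-adic density of `α(F̄_M)` in `O1`. -/
theorem exists_alpha_sub_eq_pow_mul {z : Fb (M * q)} (hz : z ∈ O1 M B hB) (n : ℕ) :
    ∃ g : Fb M, ∃ w ∈ O1 M B hB,
      z - (heckeAlphaBar Kb M q : Fb M →+* Fb (M * q)) g = ((q : ℕ) : Fb (M * q)) ^ n * w := by
  letI := algebraAlong (heckeAlphaBar Kb M q)
  haveI : FiniteDimensional (Fb M) (Fb (M * q)) := Fermat.Agent.Hecke.finiteAlong_heckeAlphaBar M q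
  have hq0 : ((q : ℕ) : Fb M) ≠ 0 := by
    rw [← map_natCast (algebraMap Kb (Fb M)) q]
    exact (map_ne_zero _).2 (Nat.cast_ne_zero.2 hq.out.ne_zero)
  have hqn : ((q : ℕ) : Fb M) ^ n ≠ 0 := pow_ne_zero _ hq0
  obtain ⟨g, -, h⟩ := exists_algebraMap_sub_small (twoValFull B hB hqM) hz
    (((q : ℕ) : Fb M) ^ n)⁻¹ (inv_ne_zero hqn)
  refine ⟨g, _, h, ?_⟩
  rw [Algebra.smul_def, map_inv₀, map_pow, map_natCast, ← mul_assoc,
    mul_inv_cancel₀ (pow_ne_zero _ (natCast_ne_zero_Fb M q)), one_mul]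
  rfl

include hqM in
/-- **EXISTENCE OF THE FRAME** (data form: the six fields of `StepA.Frame`, continuity of `φ`,
density of `e1`). -/
theorem exists_frame_data :
    ∃ (L : Type) (_ : NormedField L) (_ : CompleteSpace L) (_ : IsUltrametricDist L)
      (e1 : Fb (M * q) →+* L) (φ : L →+* L),
      (∀ x : Fb (M * q), ‖e1 x‖ ≤ 1 ↔ x ∈ O1 M B hB) ∧
      (∀ x : Fb M, e1 (heckeBetaBar Kb M q x) = φ (e1 (heckeAlphaBar Kb M q x))) ∧
      DenseRange (fun x : Fb M => e1 (heckeAlphaBar Kb M q x)) ∧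
      (∀ y : L, ‖φ y‖ = ‖y‖) ∧ Continuous φ ∧ DenseRange e1 := by
  exact exists_frame_abstract (heckeAlphaBar Kb M q : Fb M →+* Fb (M * q))
    (heckeBetaBar Kb M q : Fb M →+* Fb (M * q)) (O1 M B hB) (arch_O1 B hB) q
    (natCast_mem_nonunits_O1 M q B hB) (natCast_ne_zero_Fb M q)
    (fun z hz n => exists_alpha_sub_eq_pow_mul M q B hB hqM hz n)
    (fun x => by
      show heckeBetaBar Kb M q x ∈ O1 M B hB ↔ heckeAlphaBar Kb M q x ∈ O1 M B hB
      rw [beta_mem_O1_iff, alpha_mem_O1_iff])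

end Fermat.Agent.FF3.FrameL
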