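import Mathlib
import Fermat.Agent.FF3.StepA.Defs
import Fermat.Agent.FF3.FrameL.Frame

/-!
# PROGRAMME I, block A1 (helper21): `exists_frame` in helper27's literal, and the elementary API of
a `StepA.Frame`

Everything here follows from the six fields of `StepA.Frame` (`FF3/StepA/Defs.lean`) alone, so it
applies to ANY frame.

* `exists_frame` : the frame exists (`FrameL.exists_frame_data`);
* `isometry_phi`, `continuous_phi`;
* `norm_e1_lt_one_iff`, `norm_natCast_lt_one`, `norm_natCast_pos`, `norm_eM_le_one_iff`,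
  `norm_e1_beta`, `denseRange_e1`;
* `e2_apply`, `norm_e2_le_one_iff`, `e2_beta`, `e2_alpha`;
* constants: `phi_e1_algebraMap`, `phi_eq_self_of_mem_Kc`, `isClosed_Kc`,
  `e1_algebraMap_mem_Kc`;
* the coordinate: `norm_theta`, `phi_theta`, `norm_phi_theta_sub_pow_lt_one`.
-/

set_option autoImplicit false
set_option linter.unusedSectionVars false
set_option synthInstance.maxHeartbeats 400000

noncomputable section

namespace Fermat.Agent.FF3.FrameL

open AlgebraicCurve ModularCurve IsLocalRing Fermat.Agent.X0 Fermat.Agent.Hecke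
  Fermat.Agent.Val Fermat.Agent.BR Fermat.Agent.BR.TwoVal Fermat.Agent.BR.TwoValInst
  Fermat.Agent.BR.ResGen Fermat.Agent.FF3.StepA

variable {M q : ℕ} [NeZero M] [hq : Fact q.Prime]
  {B : ValuationSubring (AlgebraicClosure ℚ)} {hB : B.LiesOverPrime q}

/-- **(A-cons) EXISTENCE OF THE FRAME** (helper27's literal `StepA.exists_frame`, with the
hypothesis `hqM`). -/
theorem exists_frame (M q : ℕ) [NeZero M] [hq : Fact q.Prime]
    (B : ValuationSubring (AlgebraicClosure ℚ)) (hB : B.LiesOverPrime q) (hqM : ¬ q ∣ M) :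
    ∃ (L : Type) (_ : NormedField L) (_ : CompleteSpace L) (_ : IsUltrametricDist L),
      Nonempty (Frame M q B hB L) := by
  obtain ⟨L, i1, i2, i3, e1, φ, h1, h2, h3, h4, -, -⟩ := exists_frame_data M q B hB hqM
  exact ⟨L, i1, i2, i3, ⟨⟨e1, φ, h1, h2, h3, h4⟩⟩⟩

variable {L : Type} [NormedField L] (Fr : Frame M q B hB L)

/-! ### The Frobenius lift -/

theorem isometry_phi : Isometry Fr.φ :=
  AddMonoidHomClass.isometry_of_norm Fr.φ Fr.norm_phi

theorem continuous_phi : Continuous Fr.φ := (isometry_phi Fr).continuous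

/-! ### Norms -/

theorem norm_e1_lt_one_iff (x : Fb (M * q)) : ‖Fr.e1 x‖ < 1 ↔ x ∈ (O1 M B hB).nonunits := by
  constructor
  · intro h
    rcases eq_or_ne x 0 with rfl | hx0
    · exact zero_mem_nonunits _
    · rw [mem_nonunits_iff_inv_notMem _ hx0, ← Fr.norm_le_one_iff, map_inv₀, norm_inv, not_le]
      exact (one_lt_inv₀ (norm_pos_iff.2 ((map_ne_zero Fr.e1).2 hx0))).2 h
  · exact norm_lt_one_of_mem_nonunits Fr.e1 (O1 M B hB) Fr.norm_le_one_iff

theorem norm_e1_eq_one_iff (x : Fb (M * q)) :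
    ‖Fr.e1 x‖ = 1 ↔ x ∈ O1 M B hB ∧ x ∉ (O1 M B hB).nonunits := by
  rw [← Fr.norm_le_one_iff, ← norm_e1_lt_one_iff Fr, not_lt]
  exact ⟨fun h => ⟨h.le, h.ge⟩, fun h => le_antisymm h.1 h.2⟩

include Fr in
theorem norm_natCast_lt_one : ‖((q : ℕ) : L)‖ < 1 := by
  rw [← map_natCast Fr.e1 q]
  exact (norm_e1_lt_one_iff Fr _).2 (natCast_mem_nonunits_O1 M q B hB)

include Fr in
theorem natCast_ne_zero : ((q : ℕ) : L) ≠ 0 := by
  rw [← map_natCast Fr.e1 q]
  exact (map_ne_zero Fr.e1).2 (natCast_ne_zero_Fb M q)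

include Fr in
theorem norm_natCast_pos : 0 < ‖((q : ℕ) : L)‖ := norm_pos_iff.2 (natCast_ne_zero Fr)

theorem eM_apply (x : Fb M) : Fr.eM x = Fr.e1 (heckeAlphaBar Kb M q x) := rfl

theorem norm_eM_le_one_iff (x : Fb M) : ‖Fr.eM x‖ ≤ 1 ↔ x ∈ OM M B hB := by
  rw [eM_apply, Fr.norm_le_one_iff, alpha_mem_O1_iff]

theorem phi_eM (x : Fb M) : Fr.φ (Fr.eM x) = Fr.e1 (heckeBetaBar Kb M q x) :=
  (Fr.e1_beta x).symm

theorem norm_e1_beta (x : Fb M) : ‖Fr.e1 (heckeBetaBar Kb M q x)‖ = ‖Fr.eM x‖ := by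
  rw [Fr.e1_beta, Fr.norm_phi]
  rfl

theorem denseRange_eM : DenseRange Fr.eM := Fr.dense

theorem denseRange_e1 : DenseRange Fr.e1 := by
  have h : Set.range (fun x : Fb M => Fr.e1 (heckeAlphaBar Kb M q x)) ⊆ Set.range Fr.e1 := by
    rintro _ ⟨x, rfl⟩
    exact ⟨_, rfl⟩
  exact Dense.mono h Fr.dense

/-! ### The second expansion `e2 = e1 ∘ W_q` -/

section E2

variable (hqM : ¬ q ∣ M)

theorem e2_apply (x : Fb (M * q)) : Fr.e2 hqM x = Fr.e1 (Wq hqM x) := rfl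

/-- (A-e2) `e2` has unit ball `O2`. -/
theorem norm_e2_le_one_iff (x : Fb (M * q)) : ‖Fr.e2 hqM x‖ ≤ 1 ↔ x ∈ O2 B hB hqM := by
  rw [e2_apply, Fr.norm_le_one_iff, mem_O2_iff]

theorem norm_e2_lt_one_iff (x : Fb (M * q)) :
    ‖Fr.e2 hqM x‖ < 1 ↔ x ∈ (O2 B hB hqM).nonunits := by
  rw [e2_apply, norm_e1_lt_one_iff, mem_nonunits_O2_iff_Wq]

theorem e2_beta (x : Fb M) : Fr.e2 hqM (heckeBetaBar Kb M q x) = Fr.eM x := by
  rw [e2_apply, Wq_beta]
  rfl

theorem e2_alpha (x : Fb M) : Fr.e2 hqM (heckeAlphaBar Kb M q x) = Fr.φ (Fr.eM x) := by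
  rw [e2_apply, Wq_alpha, Fr.e1_beta]
  rfl

end E2

/-! ### Constants -/

theorem phi_e1_algebraMap (c : Kb) :
    Fr.φ (Fr.e1 (algebraMap Kb (Fb (M * q)) c)) = Fr.e1 (algebraMap Kb (Fb (M * q)) c) := by
  have h1 : algebraMap Kb (Fb (M * q)) c = heckeAlphaBar Kb M q (algebraMap Kb (Fb M) c) :=
    ((heckeAlphaBar Kb M q).commutes c).symm
  have h2 : algebraMap Kb (Fb (M * q)) c = heckeBetaBar Kb M q (algebraMap Kb (Fb M) c) :=
    ((heckeBetaBar Kb M q).commutes c).symm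
  conv_rhs => rw [h2]
  rw [h1, Fr.e1_beta]

theorem e1_algebraMap_mem_Kc (c : Kb) : Fr.e1 (algebraMap Kb (Fb (M * q)) c) ∈ Fr.Kc :=
  Subfield.le_topologicalClosure _ ⟨_, ⟨c, rfl⟩, rfl⟩

theorem isClosed_Kc : IsClosed (Fr.Kc : Set L) := Subfield.isClosed_topologicalClosure _

/-- the closure of the constants is fixed by the Frobenius lift -/
theorem phi_eq_self_of_mem_Kc {y : L} (hy : y ∈ Fr.Kc) : Fr.φ y = y := by
  have hcl : IsClosed ((Fr.φ.eqLocusField (RingHom.id L) : Subfield L) : Set L) :=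
    isClosed_eq (continuous_phi Fr) continuous_id
  have hle : (algebraMap Kb (Fb (M * q))).fieldRange.map Fr.e1 ≤
      Fr.φ.eqLocusField (RingHom.id L) := by
    rintro _ ⟨_, ⟨c, rfl⟩, rfl⟩
    exact phi_e1_algebraMap Fr c
  exact Subfield.topologicalClosure_minimal _ hle hcl hy

/-! ### The coordinate `θ = e1 j` -/

theorem norm_theta : ‖Fr.theta‖ = 1 := by
  refine (norm_e1_eq_one_iff Fr _).2 ⟨jOne_mem_O1 B hB, fun h => ?_⟩
  have h1 := (mem_nonunits_O1_iff B hB (jOne_mem_O1 B hB)).1 h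
  rw [res1_jOne] at h1
  exact jqModC_ne_zero_of_nontrivial _ h1

/-- `φ θ = e1 (j_q)`, `j_q = j(s^q)`. -/
theorem phi_theta : Fr.φ Fr.theta = Fr.e1 (jQ M q) := by
  have h1 : jOne M q = heckeAlphaBar Kb M q (jBarD M 1 (one_dvd M)) :=
    (Fermat.Agent.Hecke.AL.heckeAlphaBar_jBarD M q 1 (one_dvd M)).symm
  have h2 : jQ M q = heckeBetaBar Kb M q (jBarD M 1 (one_dvd M)) :=
    (Fermat.Agent.Hecke.AL.heckeBetaBar_jBarD M q 1 (one_dvd M)).symm
  rw [Frame.theta, h1, h2, Fr.e1_beta]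

/-- the Frobenius congruence at the coordinate: `φ θ ≡ θ ^ q` modulo the maximal ideal -/
theorem norm_phi_theta_sub_pow_lt_one : ‖Fr.φ Fr.theta - Fr.theta ^ q‖ < 1 := by
  rw [phi_theta, Frame.theta, ← map_pow, ← map_sub]
  exact (norm_e1_lt_one_iff Fr _).2 (tKron_mem_nonunits_O1 B hB)

end Fermat.Agent.FF3.FrameL
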